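/-
helper555 — cell A3 (S19), hedge piece FG-1: functional-equation lemma (Hazewinkel), part 1.
Order ideals `ordIdeal n` of multivariate power series (series all of whose coefficients of total
degree `< n` vanish) and their behaviour under products, powers, `expand` and substitution.
Mathlib-only.
-/
import Mathlib.RingTheory.MvPowerSeries.Expand
import Mathlib.RingTheory.MvPowerSeries.Trunc
import Mathlib.RingTheory.MvPowerSeries.Order

set_option autoImplicit false

namespace Fermat.Agent.S19.H555

open MvPowerSeries

variable {σ τ : Type*} {K : Type*} [CommRing K]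

/-- The ideal of power series whose coefficients of total degree `< n` all vanish. -/
def ordIdeal (τ : Type*) (K : Type*) [CommRing K] (n : ℕ) : Ideal (MvPowerSeries τ K) where
  carrier := {x | ∀ e : τ →₀ ℕ, e.degree < n → coeff e x = 0}
  add_mem' := by
    intro x y hx hy e he
    simp [hx e he, hy e he]
  zero_mem' := by
    intro e _
    simp
  smul_mem' := by
    classical
    intro c x hx e he
    rw [smul_eq_mul, coeff_mul]
    refine Finset.sum_eq_zero fun ij hij => ?_
    have h1 : ij.1 + ij.2 = e := Finset.mem_antidiagonal.mp hij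
    have h2 : ij.2.degree < n := by
      have : ij.1.degree + ij.2.degree = e.degree := by rw [← map_add, h1]
      omega
    rw [hx _ h2, mul_zero]

theorem mem_ordIdeal {n : ℕ} {x : MvPowerSeries τ K} :
    x ∈ ordIdeal τ K n ↔ ∀ e : τ →₀ ℕ, e.degree < n → coeff e x = 0 := Iff.rfl

theorem ordIdeal_mono {m n : ℕ} (h : m ≤ n) : ordIdeal τ K n ≤ ordIdeal τ K m := by
  intro x hx e he
  exact hx e (lt_of_lt_of_le he h)

theorem mem_ordIdeal_one {x : MvPowerSeries τ K} :
    x ∈ ordIdeal τ K 1 ↔ constantCoeff x = 0 := by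
  rw [mem_ordIdeal]
  constructor
  · intro h
    have := h 0 (by simp)
    simpa using this
  · intro h e he
    have he0 : e = 0 := by
      have : e.degree = 0 := by omega
      exact (Finsupp.degree_eq_zero_iff e).mp this
    rw [he0]
    simpa using h

theorem mul_mem_ordIdeal_add {m n : ℕ} {x y : MvPowerSeries τ K}
    (hx : x ∈ ordIdeal τ K m) (hy : y ∈ ordIdeal τ K n) : x * y ∈ ordIdeal τ K (m + n) := by
  classical
  intro e he
  rw [coeff_mul]
  refine Finset.sum_eq_zero fun ij hij => ?_
  have h1 : ij.1 + ij.2 = e := Finset.mem_antidiagonal.mp hij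
  have h3 : ij.1.degree + ij.2.degree = e.degree := by rw [← map_add, h1]
  by_cases h2 : ij.1.degree < m
  · rw [hx _ h2, zero_mul]
  · have : ij.2.degree < n := by omega
    rw [hy _ this, mul_zero]

theorem pow_mem_ordIdeal {x : MvPowerSeries τ K} (hx : x ∈ ordIdeal τ K 1) (k : ℕ) :
    x ^ k ∈ ordIdeal τ K k := by
  induction k with
  | zero =>
    intro e he
    simp at he
  | succ k ih =>
    rw [pow_succ]
    exact mul_mem_ordIdeal_add ih hx

/-- `x ≡ y mod ordIdeal n`, both without constant term, `q ≥ 2`: `x^q ≡ y^q mod ordIdeal (n+1)`. -/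
theorem pow_sub_pow_mem_ordIdeal {n q : ℕ} (hq : 2 ≤ q) {x y : MvPowerSeries τ K}
    (hx : x ∈ ordIdeal τ K 1) (hy : y ∈ ordIdeal τ K 1) (hxy : x - y ∈ ordIdeal τ K n) :
    x ^ q - y ^ q ∈ ordIdeal τ K (n + 1) := by
  obtain ⟨k, rfl⟩ : ∃ k, q = k + 2 := ⟨q - 2, by omega⟩
  have key : x ^ (k + 2) - y ^ (k + 2) =
      (x - y) * ∑ i ∈ Finset.range (k + 2), x ^ i * y ^ (k + 1 - i) := by
    have := (Commute.all x y).mul_geom_sum₂ (k + 2)
    rw [← this]
    congr 1
  rw [key]
  refine mul_mem_ordIdeal_add hxy ?_
  refine Ideal.sum_mem _ fun i hi => ?_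
  have hi' : i < k + 2 := Finset.mem_range.mp hi
  by_cases h0 : i = 0
  · subst h0
    have : y ^ (k + 1 - 0) ∈ ordIdeal τ K (k + 1) := pow_mem_ordIdeal hy _
    rw [pow_zero, one_mul]
    exact ordIdeal_mono (by omega) this
  · have : x ^ i ∈ ordIdeal τ K i := pow_mem_ordIdeal hx i
    exact Ideal.mul_mem_right _ _ (ordIdeal_mono (by omega) this)

theorem expand_mem_ordIdeal {n q : ℕ} (hq : q ≠ 0) {x : MvPowerSeries τ K}
    (hx : x ∈ ordIdeal τ K n) : expand q hq x ∈ ordIdeal τ K (q * n) := by
  classical
  intro e he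
  by_cases hdvd : ∀ i, q ∣ e i
  · -- e = q • e'
    let e' : τ →₀ ℕ := e.mapRange (fun k => k / q) (by simp)
    have he' : q • e' = e := by
      ext i
      simp only [Finsupp.smul_apply, smul_eq_mul, e', Finsupp.mapRange_apply]
      exact Nat.mul_div_cancel' (hdvd i)
    have hdeg : q * e'.degree = e.degree := by
      rw [← he', map_nsmul, smul_eq_mul]
    have hlt : e'.degree < n := by
      have : q * e'.degree < q * n := by rw [hdeg]; exact he
      exact lt_of_mul_lt_mul_left this (Nat.zero_le q)
    rw [← he', coeff_expand_smul]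
    exact hx e' hlt
  · push Not at hdvd
    obtain ⟨i, hi⟩ := hdvd
    exact coeff_expand_of_not_dvd q hq x hi


section trunc

variable [Finite τ]

theorem sub_mem_ordIdeal_iff_truncTotal_eq {n : ℕ} {x y : MvPowerSeries τ K} :
    x - y ∈ ordIdeal τ K n ↔ truncTotal n x = truncTotal n y := by
  classical
  constructor
  · intro h
    ext e
    by_cases he : e.degree < n
    · rw [coeff_truncTotal _ he, coeff_truncTotal _ he]
      have := h e he
      rwa [map_sub, sub_eq_zero] at this
    · rw [coeff_truncTotal_eq_zero _ (not_lt.mp he), coeff_truncTotal_eq_zero _ (not_lt.mp he)]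
  · intro h e he
    have h1 := congrArg (MvPolynomial.coeff e) h
    rw [coeff_truncTotal _ he, coeff_truncTotal _ he] at h1
    rw [map_sub, h1, sub_self]

/-- Substitution is "Lipschitz" for the order filtration. -/
theorem subst_sub_subst_mem_ordIdeal [Finite σ] {n : ℕ} (F : MvPowerSeries σ K)
    {α β : σ → MvPowerSeries τ K} (hα : ∀ i, constantCoeff (α i) = 0)
    (hβ : ∀ i, constantCoeff (β i) = 0) (hαβ : ∀ i, α i - β i ∈ ordIdeal τ K n) :
    F.subst α - F.subst β ∈ ordIdeal τ K n := by
  rw [sub_mem_ordIdeal_iff_truncTotal_eq]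
  rw [truncTotal_subst_eq_truncTotal_subst_truncTotal_of_le (x := fun _ => n)
      (hasSubst_of_constantCoeff_zero hα) (fun _ => le_rfl),
    truncTotal_subst_eq_truncTotal_subst_truncTotal_of_le (x := fun _ => n)
      (hasSubst_of_constantCoeff_zero hβ) (fun _ => le_rfl)]
  congr 2
  funext i
  rw [sub_mem_ordIdeal_iff_truncTotal_eq.mp (hαβ i)]

end trunc

section decomposition

set_option linter.unusedSectionVars false

variable [Fintype σ]

open Classical in
/-- A choice of a variable occurring in a monomial. -/
noncomputable def pickVar (e : σ →₀ ℕ) : Option σ :=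
  if h : e.support.Nonempty then some h.choose else none

theorem pickVar_mem {e : σ →₀ ℕ} {b : σ} (h : pickVar e = some b) : b ∈ e.support := by
  classical
  unfold pickVar at h
  split_ifs at h with hne
  · have := hne.choose_spec
    simp only [Option.some.injEq] at h
    rwa [h] at this

theorem pickVar_isSome {e : σ →₀ ℕ} (he : e ≠ 0) : ∃ b, pickVar e = some b := by
  classical
  unfold pickVar
  have hne : e.support.Nonempty := Finsupp.support_nonempty_iff.mpr he
  rw [dif_pos hne]
  exact ⟨_, rfl⟩

open Classical in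
/-- The `b`-th part of a decomposition `F = ∑ b, X b * partOf F b`. -/
noncomputable def partOf (F : MvPowerSeries σ K) (b : σ) : MvPowerSeries σ K :=
  fun e' => if pickVar (e' + Finsupp.single b 1) = some b then coeff (e' + Finsupp.single b 1) F
    else 0

open Classical in
theorem coeff_partOf (F : MvPowerSeries σ K) (b : σ) (e' : σ →₀ ℕ) :
    coeff e' (partOf F b) =
      if pickVar (e' + Finsupp.single b 1) = some b then coeff (e' + Finsupp.single b 1) F
      else 0 := rfl

theorem sum_X_mul_partOf (F : MvPowerSeries σ K) (hF : constantCoeff F = 0) :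
    ∑ b, X b * partOf F b = F := by
  classical
  ext e
  rw [map_sum]
  simp_rw [X_def, coeff_monomial_mul, one_mul, coeff_partOf]
  by_cases he : e = 0
  · subst he
    rw [coeff_zero_eq_constantCoeff_apply, hF]
    refine Finset.sum_eq_zero fun b _ => ?_
    rw [if_neg]
    intro hle
    have := hle b
    simp at this
  · obtain ⟨b0, hb0⟩ := pickVar_isSome he
    have hb0mem := pickVar_mem hb0
    have hle0 : Finsupp.single b0 1 ≤ e := by
      rw [Finsupp.single_le_iff]
      rw [Finsupp.mem_support_iff] at hb0mem
      omega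
    rw [Finset.sum_eq_single b0]
    · rw [if_pos hle0, tsub_add_cancel_of_le hle0, if_pos hb0]
    · intro b _ hb
      split_ifs with h1 h2
      · rw [tsub_add_cancel_of_le h1, hb0] at h2
        exact absurd (Option.some.inj h2).symm hb
      · rfl
      · rfl
    · intro h
      exact absurd (Finset.mem_univ b0) h

theorem constantCoeff_partOf (F : MvPowerSeries σ K) (hF : F ∈ ordIdeal σ K 2) (b : σ) :
    constantCoeff (partOf F b) = 0 := by
  classical
  rw [← coeff_zero_eq_constantCoeff_apply, coeff_partOf]
  split_ifs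
  · apply hF
    simp
  · rfl

/-- Second-order Lipschitz estimate: if `F` has no terms of degree `≤ 1`, then substitution of
tuples congruent modulo `ordIdeal n` gives results congruent modulo `ordIdeal (n+1)`. -/
theorem subst_sub_subst_mem_ordIdeal_succ [Finite τ] {n : ℕ} (F : MvPowerSeries σ K)
    (hF : F ∈ ordIdeal σ K 2)
    {α β : σ → MvPowerSeries τ K} (hα : ∀ i, constantCoeff (α i) = 0)
    (hβ : ∀ i, constantCoeff (β i) = 0) (hαβ : ∀ i, α i - β i ∈ ordIdeal τ K n) :
    F.subst α - F.subst β ∈ ordIdeal τ K (n + 1) := by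
  classical
  have hsα := hasSubst_of_constantCoeff_zero hα
  have hsβ := hasSubst_of_constantCoeff_zero hβ
  have hF0 : constantCoeff F = 0 := by
    rw [← mem_ordIdeal_one]
    exact ordIdeal_mono (by norm_num) hF
  have hdec := sum_X_mul_partOf F hF0
  have e1 : F.subst α = ∑ b, α b * (partOf F b).subst α := by
    conv_lhs => rw [← hdec]
    rw [← substAlgHom_apply hsα, map_sum]
    refine Finset.sum_congr rfl fun b _ => ?_
    rw [map_mul, substAlgHom_apply, substAlgHom_apply, subst_X hsα]
  have e2 : F.subst β = ∑ b, β b * (partOf F b).subst β := by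
    conv_lhs => rw [← hdec]
    rw [← substAlgHom_apply hsβ, map_sum]
    refine Finset.sum_congr rfl fun b _ => ?_
    rw [map_mul, substAlgHom_apply, substAlgHom_apply, subst_X hsβ]
  rw [e1, e2, ← Finset.sum_sub_distrib]
  refine Ideal.sum_mem _ fun b _ => ?_
  have : α b * (partOf F b).subst α - β b * (partOf F b).subst β =
      (α b - β b) * (partOf F b).subst α +
        β b * ((partOf F b).subst α - (partOf F b).subst β) := by ring
  rw [this]
  refine Ideal.add_mem _ ?_ ?_
  · refine mul_mem_ordIdeal_add (hαβ b) ?_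
    rw [mem_ordIdeal_one]
    exact constantCoeff_subst_eq_zero hsα hα (constantCoeff_partOf F hF b)
  · rw [add_comm n 1]
    refine mul_mem_ordIdeal_add ?_ (subst_sub_subst_mem_ordIdeal _ hα hβ hαβ)
    rw [mem_ordIdeal_one]
    exact hβ b

end decomposition

end Fermat.Agent.S19.H555
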