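/-
helper555 — cell A3 (S19), hedge piece FG-1: functional-equation lemma (Hazewinkel), part 2.
Arithmetic of `p`-divisibility: `p^r ∣ a - b ⟹ p^(r+i) ∣ a^(p^i) - b^(p^i)`, and the Frobenius
congruence `expand (p^i) φ ≡ φ^(p^i) mod p` for power series over a ring in which `a^p ≡ a mod p`.
Mathlib-only.
-/
import Mathlib.RingTheory.MvPowerSeries.Expand
import Mathlib.Algebra.CharP.Quotient

set_option autoImplicit false

namespace Fermat.Agent.S19.H555

open MvPowerSeries

section Pow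

variable {A : Type*} [CommRing A]

theorem pow_prime_sub_pow_prime (p : ℕ) {r : ℕ} (hr : 1 ≤ r) {a b c : A}
    (h : a - b = (p : A) ^ r * c) : ∃ c', a ^ p - b ^ p = (p : A) ^ (r + 1) * c' := by
  -- a^p - b^p = (a - b) * ∑_{j<p} a^j b^(p-1-j)
  have h1 := (Commute.all a b).mul_geom_sum₂ p
  -- ∑ ≡ p b^(p-1) mod (a-b)
  have h2 : ∃ t, ∑ j ∈ Finset.range p, a ^ j * b ^ (p - 1 - j) =
      (p : A) * b ^ (p - 1) + (a - b) * t := by
    have : ∀ j ∈ Finset.range p, ∃ t, a ^ j * b ^ (p - 1 - j) = b ^ (p - 1) + (a - b) * t := by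
      intro j hj
      obtain ⟨u, hu⟩ := sub_dvd_pow_sub_pow a b j
      refine ⟨u * b ^ (p - 1 - j), ?_⟩
      have hj' : j < p := Finset.mem_range.mp hj
      have hb : b ^ (p - 1) = b ^ j * b ^ (p - 1 - j) := by
        rw [← pow_add]
        congr 1
        omega
      have ha : a ^ j = b ^ j + (a - b) * u := by rw [← hu]; ring
      rw [hb, ha]
      ring
    choose! t ht using this
    refine ⟨∑ j ∈ Finset.range p, t j, ?_⟩
    rw [Finset.sum_congr rfl ht, Finset.sum_add_distrib, Finset.sum_const, Finset.card_range,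
      nsmul_eq_mul, Finset.mul_sum]
  obtain ⟨t, ht⟩ := h2
  obtain ⟨r', rfl⟩ : ∃ r', r = r' + 1 := ⟨r - 1, by omega⟩
  refine ⟨c * (b ^ (p - 1) + (p : A) ^ r' * c * t), ?_⟩
  rw [← h1, ht, h]
  ring

theorem pow_prime_pow_sub_pow_prime_pow (p : ℕ) {r : ℕ} (hr : 1 ≤ r) {a b c : A}
    (h : a - b = (p : A) ^ r * c) (i : ℕ) :
    ∃ c', a ^ p ^ i - b ^ p ^ i = (p : A) ^ (r + i) * c' := by
  induction i with
  | zero => exact ⟨c, by simpa using h⟩
  | succ i ih =>
    obtain ⟨c', hc'⟩ := ih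
    obtain ⟨c'', hc''⟩ := pow_prime_sub_pow_prime p (r := r + i) (by omega) hc'
    refine ⟨c'', ?_⟩
    rw [pow_succ, pow_mul, pow_mul, hc'']
    congr 1

end Pow

section Frobenius

variable {τ : Type*} {R : Type*} [CommRing R]

theorem coeff_natCast_mul (p : ℕ) (ψ : MvPowerSeries τ R) (e : τ →₀ ℕ) :
    coeff e ((p : MvPowerSeries τ R) * ψ) = (p : R) * coeff e ψ := by
  have : ((p : MvPowerSeries τ R)) = C (p : R) := by simp
  rw [this, coeff_C_mul]

/-- The power series with prescribed coefficients. -/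
def mkSeries (c : (τ →₀ ℕ) → R) : MvPowerSeries τ R := c

theorem coeff_mkSeries (c : (τ →₀ ℕ) → R) (e : τ →₀ ℕ) : coeff e (mkSeries c) = c e := rfl

theorem exists_eq_natCast_mul_of_coeff (p : ℕ) (x : MvPowerSeries τ R)
    (h : ∀ e, ∃ c, coeff e x = (p : R) * c) :
    ∃ ψ : MvPowerSeries τ R, x = (p : MvPowerSeries τ R) * ψ := by
  choose c hc using h
  refine ⟨mkSeries c, ?_⟩
  ext e
  rw [coeff_natCast_mul, hc e, coeff_mkSeries]

theorem expand_eq_of_eq {n m : ℕ} (h : n = m) (hn : n ≠ 0) (hm : m ≠ 0)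
    (φ : MvPowerSeries τ R) : expand n hn φ = expand m hm φ := by
  subst h
  rfl

/-- Frobenius congruence: if `a^p ≡ a mod p` for all `a : R`, then `φ(X^p) ≡ φ(X)^p mod p`. -/
theorem expand_sub_pow_eq_natCast_mul (p : ℕ) [hp : Fact p.Prime]
    (frob : ∀ a : R, ∃ b : R, a ^ p - a = (p : R) * b) (φ : MvPowerSeries τ R) :
    ∃ ψ : MvPowerSeries τ R, expand p hp.out.ne_zero φ - φ ^ p = (p : MvPowerSeries τ R) * ψ := by
  classical
  by_cases hu : IsUnit (p : R)
  · obtain ⟨u, hu⟩ := hu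
    refine ⟨C (↑u⁻¹ : R) * (expand p hp.out.ne_zero φ - φ ^ p), ?_⟩
    have : ((p : MvPowerSeries τ R)) = C (p : R) := by simp
    rw [this, ← mul_assoc, ← map_mul, ← hu, Units.mul_inv, map_one, one_mul]
  · have hnu : (p : R) ∈ nonunits R := hu
    have : CharP (R ⧸ Ideal.span {(p : R)}) p := CharP.quotient R p hnu
    have : ExpChar (R ⧸ Ideal.span {(p : R)}) p := ExpChar.prime hp.out
    set q := Ideal.Quotient.mk (Ideal.span {(p : R)}) with hq
    have hfrob : frobenius (R ⧸ Ideal.span {(p : R)}) p = RingHom.id _ := by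
      refine RingHom.ext fun x => ?_
      obtain ⟨a, rfl⟩ := Ideal.Quotient.mk_surjective x
      rw [frobenius_def, RingHom.id_apply, ← map_pow, ← sub_eq_zero, ← map_sub]
      obtain ⟨b, hb⟩ := frob a
      rw [hb, Ideal.Quotient.eq_zero_iff_mem, Ideal.mem_span_singleton']
      exact ⟨b, mul_comm _ _⟩
    have key := map_frobenius_expand (σ := τ) p hp.out.ne_zero (f := map q φ)
    rw [hfrob] at key
    have key2 : map q (expand p hp.out.ne_zero φ - φ ^ p) = 0 := by
      rw [map_sub, map_pow, map_expand, ← key]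
      simp
    apply exists_eq_natCast_mul_of_coeff
    intro e
    have := congrArg (coeff e) key2
    rw [coeff_map, map_zero, hq, Ideal.Quotient.eq_zero_iff_mem, Ideal.mem_span_singleton'] at this
    obtain ⟨c, hc⟩ := this
    exact ⟨c, by rw [← hc, mul_comm]⟩

/-- Iterated Frobenius congruence: `φ(X^(p^i)) ≡ φ(X)^(p^i) mod p` for `i ≥ 1`... (also `i = 0`). -/
theorem expand_pow_sub_pow_eq_natCast_mul (p : ℕ) [hp : Fact p.Prime]
    (frob : ∀ a : R, ∃ b : R, a ^ p - a = (p : R) * b) (φ : MvPowerSeries τ R) (i : ℕ) :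
    ∃ ψ : MvPowerSeries τ R,
      expand (p ^ i) (pow_ne_zero _ hp.out.ne_zero) φ - φ ^ p ^ i = (p : MvPowerSeries τ R) * ψ := by
  induction i with
  | zero => exact ⟨0, by simp⟩
  | succ i ih =>
    obtain ⟨ψ, hψ⟩ := ih
    -- expand (p^(i+1)) φ = expand p (expand (p^i) φ)
    have h1 : expand (p ^ (i + 1)) (pow_ne_zero _ hp.out.ne_zero) φ =
        expand p hp.out.ne_zero (expand (p ^ i) (pow_ne_zero _ hp.out.ne_zero) φ) := by
      have := expand_mul p hp.out.ne_zero (p ^ i) (pow_ne_zero _ hp.out.ne_zero) φ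
      rw [← this]
      exact expand_eq_of_eq (by rw [pow_succ, mul_comm]) _ _ φ
    obtain ⟨ψ1, hψ1⟩ := expand_sub_pow_eq_natCast_mul p frob
      (expand (p ^ i) (pow_ne_zero _ hp.out.ne_zero) φ)
    -- (expand (p^i) φ)^p ≡ (φ^(p^i))^p mod p
    have hψ' : expand (p ^ i) (pow_ne_zero _ hp.out.ne_zero) φ - φ ^ p ^ i =
        (p : MvPowerSeries τ R) ^ 1 * ψ := by rw [pow_one]; exact hψ
    obtain ⟨ψ2, hψ2⟩ := pow_prime_sub_pow_prime p (le_refl 1) hψ'
    refine ⟨ψ1 + (p : MvPowerSeries τ R) * ψ2, ?_⟩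
    rw [h1, pow_succ, pow_mul]
    have : expand p hp.out.ne_zero (expand (p ^ i) (pow_ne_zero _ hp.out.ne_zero) φ) -
        (φ ^ p ^ i) ^ p =
        (expand p hp.out.ne_zero (expand (p ^ i) (pow_ne_zero _ hp.out.ne_zero) φ) -
          (expand (p ^ i) (pow_ne_zero _ hp.out.ne_zero) φ) ^ p) +
        ((expand (p ^ i) (pow_ne_zero _ hp.out.ne_zero) φ) ^ p - (φ ^ p ^ i) ^ p) := by ring
    rw [this, hψ1, hψ2]
    ring

end Frobenius

end Fermat.Agent.S19.H555
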