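/-
helper555 — cell A3 (S19), hedge piece FG-1: functional-equation lemma (Hazewinkel), part 3.
The key congruence: if `f` satisfies a functional equation
  `p • f = p • g + ∑_{i<m} B_i • f(X^(p^(i+1)))`   (`g`, `B_i` integral)
then `α ≡ β mod p^r` (integral tuples, `r ≥ 1`) implies `f(α) ≡ f(β) mod p^r` (integrally).
Mathlib-only.
-/
import Fermat.Agent.S19.H555.Basic
import Fermat.Agent.S19.H555.Frob

set_option autoImplicit false

namespace Fermat.Agent.S19.H555

open MvPowerSeries

variable {σ τ : Type*} [Fintype σ]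
variable {R K : Type*} [CommRing R] [CommRing K]

/-- The "Frobenius twist" part of the functional equation:
`twist h a = ∑_{i<m} ∑_b ι(B i a b) · h_b(X^(p^(i+1)))`. -/
noncomputable def twist (ι : R →+* K) (p : ℕ) (hp : p ≠ 0) (m : ℕ) (B : ℕ → σ → σ → R)
    (h : σ → MvPowerSeries τ K) (a : σ) : MvPowerSeries τ K :=
  ∑ i ∈ Finset.range m, ∑ b, C (ι (B i a b)) * expand (p ^ (i + 1)) (pow_ne_zero _ hp) (h b)

/-- `f` is of type `(B, g)`: `p • f = p • g + twist f`. -/
def IsType (ι : R →+* K) (p : ℕ) (hp : p ≠ 0) (m : ℕ) (B : ℕ → σ → σ → R)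
    (g : σ → MvPowerSeries τ R) (f : σ → MvPowerSeries τ K) : Prop :=
  ∀ a, (p : MvPowerSeries τ K) * f a =
    (p : MvPowerSeries τ K) * map ι (g a) + twist ι p hp m B f a

section PolyLipschitz

variable {S : Type*} [CommRing S] [Algebra R S]

omit [Fintype σ] in
theorem aeval_sub_aeval_mem (J : Ideal S) (P : MvPolynomial σ R) {α β : σ → S}
    (h : ∀ b, α b - β b ∈ J) : MvPolynomial.aeval α P - MvPolynomial.aeval β P ∈ J := by
  rw [← Ideal.Quotient.eq_zero_iff_mem, map_sub, sub_eq_zero, MvPolynomial.map_aeval,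
    MvPolynomial.map_aeval]
  have : (fun i => (Ideal.Quotient.mk J) (α i)) = fun i => (Ideal.Quotient.mk J) (β i) := by
    funext b
    rw [← sub_eq_zero, ← map_sub, Ideal.Quotient.eq_zero_iff_mem]
    exact h b
  rw [this]

end PolyLipschitz

section TruncFE

variable [Finite τ]

theorem ceilDiv_lt_iff {a n q : ℕ} (hq : 0 < q) : a < (n + q - 1) / q ↔ q * a < n := by
  rw [Nat.lt_iff_add_one_le, Nat.le_div_iff_mul_le hq]
  constructor
  · intro h
    have : (a + 1) * q = q * a + q := by ring
    omega
  · intro h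
    have : (a + 1) * q = q * a + q := by ring
    omega

theorem coeff_expand_truncTotal (q : ℕ) (hq : q ≠ 0) (n : ℕ) (F : MvPowerSeries τ K)
    (e : τ →₀ ℕ) :
    MvPolynomial.coeff e (MvPolynomial.expand q (truncTotal ((n + q - 1) / q) F)) =
      if e.degree < n then coeff e (expand q hq F) else 0 := by
  classical
  by_cases hdvd : ∀ i, q ∣ e i
  · let e' : τ →₀ ℕ := e.mapRange (fun k => k / q) (by simp)
    have he' : q • e' = e := by
      ext i
      simp only [Finsupp.smul_apply, smul_eq_mul, e', Finsupp.mapRange_apply]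
      exact Nat.mul_div_cancel' (hdvd i)
    have hdeg : q * e'.degree = e.degree := by
      rw [← he', map_nsmul, smul_eq_mul]
    rw [← he', MvPolynomial.coeff_expand_smul q hq, coeff_expand_smul, coeff_truncTotal_eq_ite,
      he', ← hdeg]
    simp only [ceilDiv_lt_iff (Nat.pos_of_ne_zero hq)]
  · push Not at hdvd
    obtain ⟨i, hi⟩ := hdvd
    rw [MvPolynomial.coeff_expand_of_not_dvd _ hi, coeff_expand_of_not_dvd q hq F hi, ite_self]

theorem coeff_map_truncTotal (ι : R →+* K) (n : ℕ) (G : MvPowerSeries τ R) (e : τ →₀ ℕ) :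
    MvPolynomial.coeff e (MvPolynomial.map ι (truncTotal n G)) =
      if e.degree < n then coeff e (map ι G) else 0 := by
  rw [MvPolynomial.coeff_map, coeff_truncTotal_eq_ite, coeff_map]
  split_ifs <;> simp

end TruncFE

section TruncatedFE

omit [Fintype σ] in
theorem coeff_natCast_mul' {ρ : Type*} (p : ℕ) (ψ : MvPowerSeries ρ K) (e : ρ →₀ ℕ) :
    coeff e ((p : MvPowerSeries ρ K) * ψ) = (p : K) * coeff e ψ :=
  coeff_natCast_mul p ψ e

omit [Fintype σ] in
theorem mvPolynomial_coeff_natCast_mul {ρ : Type*} (p : ℕ) (P : MvPolynomial ρ K) (e : ρ →₀ ℕ) :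
    MvPolynomial.coeff e ((p : MvPolynomial ρ K) * P) = (p : K) * MvPolynomial.coeff e P := by
  have : ((p : MvPolynomial ρ K)) = MvPolynomial.C (p : K) := by simp
  rw [this, MvPolynomial.coeff_C_mul]

/-- The functional equation, truncated at total degree `< n`. -/
theorem truncTotal_isType {ι : R →+* K} {p : ℕ} {hp : p ≠ 0} {m : ℕ} {B : ℕ → σ → σ → R}
    {g : σ → MvPowerSeries σ R} {f : σ → MvPowerSeries σ K}
    (hfg : IsType ι p hp m B g f) (n : ℕ) (a : σ) :
    (p : MvPolynomial σ K) * truncTotal n (f a) =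
      (p : MvPolynomial σ K) * MvPolynomial.map ι (truncTotal n (g a)) +
      ∑ i ∈ Finset.range m, ∑ b, MvPolynomial.C (ι (B i a b)) *
        MvPolynomial.expand (p ^ (i + 1))
          (truncTotal ((n + p ^ (i + 1) - 1) / p ^ (i + 1)) (f b)) := by
  classical
  ext e
  have h := congrArg (coeff e) (hfg a)
  rw [coeff_natCast_mul', map_add, coeff_natCast_mul', twist, map_sum] at h
  simp_rw [map_sum, coeff_C_mul] at h
  rw [mvPolynomial_coeff_natCast_mul, MvPolynomial.coeff_add, mvPolynomial_coeff_natCast_mul,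
    MvPolynomial.coeff_sum]
  simp_rw [MvPolynomial.coeff_sum, MvPolynomial.coeff_C_mul,
    coeff_expand_truncTotal _ (pow_ne_zero _ hp), coeff_map_truncTotal, coeff_truncTotal_eq_ite]
  by_cases he : e.degree < n
  · simp only [if_pos he]
    exact h
  · simp only [if_neg he, mul_zero, Finset.sum_const_zero, add_zero]

end TruncatedFE

section LemmaCPoly

theorem truncTotal_eq_zero_of_le_one {f : MvPowerSeries σ K} (hf0 : constantCoeff f = 0)
    {n : ℕ} (hn : n ≤ 1) : truncTotal n f = 0 := by
  ext e
  rw [coeff_truncTotal_eq_ite, MvPolynomial.coeff_zero]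
  split_ifs with h
  · have he : e = 0 := by
      have : e.degree = 0 := by omega
      exact (Finsupp.degree_eq_zero_iff e).mp this
    rw [he, coeff_zero_eq_constantCoeff_apply, hf0]
  · rfl

theorem ceilDiv_lt_self {n q : ℕ} (hn : 2 ≤ n) (hq : 2 ≤ q) : (n + q - 1) / q < n := by
  rw [Nat.div_lt_iff_lt_mul (by omega)]
  have h : n + q ≤ n * q := by nlinarith
  omega

variable {S T : Type*} [CommRing S] [CommRing T] [Algebra R S] [Algebra K T]

omit [Fintype σ] in
theorem aeval_map_comp (ι : R →+* K) (j : S →+* T)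
    (hj : ∀ r, j (algebraMap R S r) = algebraMap K T (ι r)) (α : σ → S)
    (G : MvPolynomial σ R) :
    MvPolynomial.aeval (fun b => j (α b)) (MvPolynomial.map ι G) = j (MvPolynomial.aeval α G) := by
  rw [MvPolynomial.map_aeval, MvPolynomial.aeval_def, MvPolynomial.eval₂_map]
  have : (algebraMap K T).comp ι = j.comp (algebraMap R S) := by
    ext r
    exact (hj r).symm
  rw [this]
  rfl

/-- Key congruence, polynomial (truncated) version. -/
theorem lemmaC_poly {ι : R →+* K} {p : ℕ} [hp : Fact p.Prime] {m : ℕ} {B : ℕ → σ → σ → R}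
    {g : σ → MvPowerSeries σ R} {f : σ → MvPowerSeries σ K}
    (hf0 : ∀ a, constantCoeff (f a) = 0)
    (hfg : IsType ι p hp.out.ne_zero m B g f)
    (j : S →+* T) (hj : ∀ r, j (algebraMap R S r) = algebraMap K T (ι r))
    (nzd : ∀ x : T, (p : T) * x = 0 → x = 0) :
    ∀ (n r : ℕ), 1 ≤ r → ∀ (α β : σ → S), (∀ b, ∃ c, α b - β b = (p : S) ^ r * c) →
      ∀ a, ∃ d : S, MvPolynomial.aeval (fun b => j (α b)) (truncTotal n (f a)) -
          MvPolynomial.aeval (fun b => j (β b)) (truncTotal n (f a)) = (p : T) ^ r * j d := by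
  classical
  intro n
  induction n using Nat.strong_induction_on with
  | _ n ih =>
    intro r hr α β hαβ a
    rcases Nat.lt_or_ge n 2 with hn | hn
    · refine ⟨0, ?_⟩
      rw [truncTotal_eq_zero_of_le_one (hf0 a) (by omega)]
      simp
    · -- the truncated functional equation, evaluated at α and β
      have hT := truncTotal_isType hfg n a
      have hα := congrArg (MvPolynomial.aeval (fun b => j (α b))) hT
      have hβ := congrArg (MvPolynomial.aeval (fun b => j (β b))) hT
      simp only [map_add, map_mul, map_natCast, map_sum, MvPolynomial.aeval_C,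
        MvPolynomial.aeval_expand, aeval_map_comp ι j hj] at hα hβ
      -- the `g`-part
      have hG : ∃ c0 : S, MvPolynomial.aeval α (truncTotal n (g a)) -
          MvPolynomial.aeval β (truncTotal n (g a)) = (p : S) ^ r * c0 := by
        have := aeval_sub_aeval_mem (Ideal.span {(p : S) ^ r}) (truncTotal n (g a))
          (α := α) (β := β) (fun b => by
            obtain ⟨c, hc⟩ := hαβ b
            rw [hc]
            exact Ideal.mul_mem_right _ _ (Ideal.subset_span rfl))
        obtain ⟨c0, hc0⟩ := Ideal.mem_span_singleton'.mp this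
        exact ⟨c0, by rw [← hc0, mul_comm]⟩
      obtain ⟨c0, hc0⟩ := hG
      -- the twisted parts, by induction
      have hI : ∀ i ∈ Finset.range m, ∀ b, ∃ d : S,
          MvPolynomial.aeval ((fun b => j (α b)) ^ p ^ (i + 1))
              (truncTotal ((n + p ^ (i + 1) - 1) / p ^ (i + 1)) (f b)) -
            MvPolynomial.aeval ((fun b => j (β b)) ^ p ^ (i + 1))
              (truncTotal ((n + p ^ (i + 1) - 1) / p ^ (i + 1)) (f b)) =
            (p : T) ^ (r + (i + 1)) * j d := by
        intro i _ b
        have hq : 2 ≤ p ^ (i + 1) := by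
          calc 2 ≤ p := hp.out.two_le
            _ = p ^ 1 := (pow_one p).symm
            _ ≤ p ^ (i + 1) := Nat.pow_le_pow_right hp.out.pos (by omega)
        have := ih _ (ceilDiv_lt_self hn hq) (r + (i + 1)) (by omega)
          (fun b => α b ^ p ^ (i + 1)) (fun b => β b ^ p ^ (i + 1))
          (fun b => by
            obtain ⟨c, hc⟩ := hαβ b
            exact pow_prime_pow_sub_pow_prime_pow p hr hc (i + 1)) b
        obtain ⟨d, hd⟩ := this
        refine ⟨d, ?_⟩
        have e1 : ((fun b => j (α b)) ^ p ^ (i + 1)) = fun b => j (α b ^ p ^ (i + 1)) := by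
          funext b
          simp [Pi.pow_apply, map_pow]
        have e2 : ((fun b => j (β b)) ^ p ^ (i + 1)) = fun b => j (β b ^ p ^ (i + 1)) := by
          funext b
          simp [Pi.pow_apply, map_pow]
        rw [e1, e2]
        exact hd
      choose! d hd using hI
      refine ⟨c0 + ∑ i ∈ Finset.range m, ∑ b,
        algebraMap R S (B i a b) * ((p : S) ^ i * d i b), ?_⟩
      apply sub_eq_zero.mp
      apply nzd
      have hsub : (p : T) * (MvPolynomial.aeval (fun b => j (α b)) (truncTotal n (f a)) -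
          MvPolynomial.aeval (fun b => j (β b)) (truncTotal n (f a))) =
          (p : T) * j (MvPolynomial.aeval α (truncTotal n (g a)) -
            MvPolynomial.aeval β (truncTotal n (g a))) +
          ∑ i ∈ Finset.range m, ∑ b, algebraMap K T (ι (B i a b)) *
            (MvPolynomial.aeval ((fun b => j (α b)) ^ p ^ (i + 1))
              (truncTotal ((n + p ^ (i + 1) - 1) / p ^ (i + 1)) (f b)) -
            MvPolynomial.aeval ((fun b => j (β b)) ^ p ^ (i + 1))
              (truncTotal ((n + p ^ (i + 1) - 1) / p ^ (i + 1)) (f b))) := by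
        rw [mul_sub, hα, hβ, map_sub, mul_sub]
        simp only [mul_sub, Finset.sum_sub_distrib]
        ring
      rw [mul_sub, hsub, hc0]
      have hsum : ∑ i ∈ Finset.range m, ∑ b, algebraMap K T (ι (B i a b)) *
            (MvPolynomial.aeval ((fun b => j (α b)) ^ p ^ (i + 1))
              (truncTotal ((n + p ^ (i + 1) - 1) / p ^ (i + 1)) (f b)) -
            MvPolynomial.aeval ((fun b => j (β b)) ^ p ^ (i + 1))
              (truncTotal ((n + p ^ (i + 1) - 1) / p ^ (i + 1)) (f b))) =
          ∑ i ∈ Finset.range m, ∑ b, algebraMap K T (ι (B i a b)) *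
            ((p : T) ^ (r + (i + 1)) * j (d i b)) := by
        refine Finset.sum_congr rfl fun i hi => Finset.sum_congr rfl fun b _ => ?_
        rw [hd i hi b]
      rw [hsum]
      simp only [map_add, map_mul, map_sum, map_pow, map_natCast, hj, Finset.mul_sum, mul_add]
      rw [add_sub_add_left_eq_sub, sub_eq_zero]
      refine Finset.sum_congr rfl fun i _ => Finset.sum_congr rfl fun b _ => ?_
      ring

end LemmaCPoly

end Fermat.Agent.S19.H555
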