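/-
helper555 — cell A3 (S19), hedge piece FG-1: functional-equation lemma (Hazewinkel), part 4.
Main theorem `integral_of_isType`: if `f` (with `f ≡ X` modulo degree 2 terms of its integral part)
and `h` satisfy functional equations of the same type with integral `g`, `ḡ`, and `f ∘ Φ = h`, then
`Φ` has integral coefficients.  Mathlib-only.
-/
import Fermat.Agent.S19.H555.LemmaC

set_option autoImplicit false

namespace Fermat.Agent.S19.H555

open MvPowerSeries

variable {σ τ : Type*} [Fintype σ] [Finite τ]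
variable {R K : Type*} [CommRing R] [CommRing K]

omit [Finite τ] in
theorem natCast_mul_eq_zero_imp (p : ℕ) (nzd : ∀ x : K, (p : K) * x = 0 → x = 0)
    (x : MvPowerSeries τ K) (hx : (p : MvPowerSeries τ K) * x = 0) : x = 0 := by
  ext e
  have := congrArg (coeff e) hx
  rw [coeff_natCast_mul, map_zero] at this
  rw [map_zero]
  exact nzd _ this

omit [Finite τ] in
theorem mem_ordIdeal_of_natCast_mul_mem (p : ℕ) (nzd : ∀ x : K, (p : K) * x = 0 → x = 0)
    {n : ℕ} (x : MvPowerSeries τ K) (hx : (p : MvPowerSeries τ K) * x ∈ ordIdeal τ K n) :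
    x ∈ ordIdeal τ K n := by
  intro e he
  have := hx e he
  rw [coeff_natCast_mul] at this
  exact nzd _ this

/-- Key congruence, power series version. -/
theorem lemmaC_series {ι : R →+* K} {p : ℕ} [hp : Fact p.Prime] {m : ℕ} {B : ℕ → σ → σ → R}
    {g : σ → MvPowerSeries σ R} {f : σ → MvPowerSeries σ K}
    (hf0 : ∀ a, constantCoeff (f a) = 0)
    (hfg : IsType ι p hp.out.ne_zero m B g f)
    (nzd : ∀ x : K, (p : K) * x = 0 → x = 0)
    {r : ℕ} (hr : 1 ≤ r) (α β : σ → MvPowerSeries τ R)
    (hα0 : ∀ b, constantCoeff (α b) = 0) (hβ0 : ∀ b, constantCoeff (β b) = 0)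
    (hαβ : ∀ b, ∃ c, α b - β b = (p : MvPowerSeries τ R) ^ r * c) (a : σ) :
    ∃ d : MvPowerSeries τ R,
      (f a).subst (fun b => map ι (α b)) - (f a).subst (fun b => map ι (β b)) =
        (p : MvPowerSeries τ K) ^ r * map ι d := by
  classical
  have hj : ∀ r : R, map ι (algebraMap R (MvPowerSeries τ R) r) =
      algebraMap K (MvPowerSeries τ K) (ι r) := by
    intro r
    simp [MvPowerSeries.algebraMap_apply]
  have hpoly := fun n => lemmaC_poly hf0 hfg (map (σ := τ) ι) hj
    (natCast_mul_eq_zero_imp p nzd) n r hr α β hαβ a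
  choose d hd using hpoly
  have hα0' : ∀ b, constantCoeff (map ι (α b)) = 0 := fun b => by
    rw [constantCoeff_map, hα0, map_zero]
  have hβ0' : ∀ b, constantCoeff (map ι (β b)) = 0 := fun b => by
    rw [constantCoeff_map, hβ0, map_zero]
  refine ⟨mkSeries fun e => coeff e (d (e.degree + 1)), ?_⟩
  ext e
  have hlt : e.degree < e.degree + 1 := Nat.lt_succ_self _
  -- coefficient `e` of the left side is computed by the truncation at level `e.degree + 1`
  have h1 : ∀ γ : σ → MvPowerSeries τ K, (∀ b, constantCoeff (γ b) = 0) →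
      coeff e ((f a).subst γ) =
        coeff e (MvPolynomial.aeval γ (truncTotal (e.degree + 1) (f a))) := by
    intro γ hγ
    have := truncTotal_subst_eq_truncTotal_truncTotal_subst (f := f a) (k := e.degree + 1) hγ
    have h2 := congrArg (MvPolynomial.coeff e) this
    rw [coeff_truncTotal _ hlt, coeff_truncTotal _ hlt, subst_coe] at h2
    exact h2
  rw [map_sub, h1 _ hα0', h1 _ hβ0', ← map_sub, hd (e.degree + 1)]
  have hcast : ((p : MvPowerSeries τ K)) ^ r = ((p ^ r : ℕ) : MvPowerSeries τ K) := by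
    push_cast
    rfl
  rw [hcast, coeff_natCast_mul, coeff_natCast_mul, coeff_map, coeff_map, coeff_mkSeries]

omit [Fintype σ] [Finite τ] in
theorem subst_expand_eq (q : ℕ) (hq : q ≠ 0) (F : MvPowerSeries σ K)
    {Φ : σ → MvPowerSeries τ K} (hΦ : HasSubst Φ) :
    (expand q hq F).subst Φ = F.subst (fun b => Φ b ^ q) := by
  rw [expand, substAlgHom_apply, subst_comp_subst_apply (HasSubst.X_pow hq) hΦ]
  congr 1
  funext b
  rw [subst_pow hΦ, subst_X hΦ]

omit [Finite τ] in
/-- The functional equations of `f` and of `h = f ∘ Φ`, combined. -/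
theorem isType_subst_combine {ι : R →+* K} {p : ℕ} (hp : p ≠ 0) {m : ℕ} {B : ℕ → σ → σ → R}
    {g : σ → MvPowerSeries σ R} {f : σ → MvPowerSeries σ K}
    (hfg : IsType ι p hp m B g f)
    {gb : σ → MvPowerSeries τ R} {h : σ → MvPowerSeries τ K}
    (hhg : IsType ι p hp m B gb h)
    {Φ : σ → MvPowerSeries τ K} (hΦ0 : ∀ a, constantCoeff (Φ a) = 0)
    (hΦ : ∀ a, (f a).subst Φ = h a) (a : σ) :
    (p : MvPowerSeries τ K) * ((map ι (g a)).subst Φ - map ι (gb a)) =
      ∑ i ∈ Finset.range m, ∑ b, C (ι (B i a b)) *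
        ((f b).subst (fun c => expand (p ^ (i + 1)) (pow_ne_zero _ hp) (Φ c)) -
          (f b).subst (fun c => Φ c ^ p ^ (i + 1))) := by
  have hs : HasSubst Φ := hasSubst_of_constantCoeff_zero hΦ0
  -- substitute `Φ` into the functional equation of `f`
  have h1 : (p : MvPowerSeries τ K) * h a = (p : MvPowerSeries τ K) * (map ι (g a)).subst Φ +
      ∑ i ∈ Finset.range m, ∑ b, C (ι (B i a b)) *
        (f b).subst (fun c => Φ c ^ p ^ (i + 1)) := by
    have := congrArg (substAlgHom (R := K) hs) (hfg a)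
    rw [map_mul, map_add, map_mul, map_natCast, twist, map_sum] at this
    simp only [map_sum, map_mul, substAlgHom_apply, subst_C,
      subst_expand_eq _ (pow_ne_zero _ hp) _ hs] at this
    rw [hΦ a] at this
    exact this
  -- the functional equation of `h`, with `h = f ∘ Φ`
  have h2 : (p : MvPowerSeries τ K) * h a = (p : MvPowerSeries τ K) * map ι (gb a) +
      ∑ i ∈ Finset.range m, ∑ b, C (ι (B i a b)) *
        (f b).subst (fun c => expand (p ^ (i + 1)) (pow_ne_zero _ hp) (Φ c)) := by
    have := hhg a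
    rw [twist] at this
    rw [this]
    congr 1
    refine Finset.sum_congr rfl fun i _ => Finset.sum_congr rfl fun b _ => ?_
    rw [← hΦ b, expand_subst _ _ hs]
  have h3 := h1.symm.trans h2
  rw [mul_sub]
  simp only [mul_sub, Finset.sum_sub_distrib]
  linear_combination h3

omit [Fintype σ] [Finite τ] in
theorem map_mem_ordIdeal (ι : R →+* K) {n : ℕ} {x : MvPowerSeries τ R}
    (hx : x ∈ ordIdeal τ R n) : map ι x ∈ ordIdeal τ K n := by
  intro e he
  rw [coeff_map, hx e he, map_zero]

/-- One step of the induction in the functional-equation lemma. -/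
theorem integral_step {ι : R →+* K} {p : ℕ} [hp : Fact p.Prime] {m : ℕ} {B : ℕ → σ → σ → R}
    (nzd : ∀ x : K, (p : K) * x = 0 → x = 0)
    (frob : ∀ a : R, ∃ b : R, a ^ p - a = (p : R) * b)
    {g : σ → MvPowerSeries σ R} {f : σ → MvPowerSeries σ K}
    (hg : ∀ a, g a - X a ∈ ordIdeal σ R 2)
    (hf0 : ∀ a, constantCoeff (f a) = 0)
    (hfg : IsType ι p hp.out.ne_zero m B g f)
    {gb : σ → MvPowerSeries τ R} {h : σ → MvPowerSeries τ K}
    (hhg : IsType ι p hp.out.ne_zero m B gb h)
    {Φ : σ → MvPowerSeries τ K} (hΦ0 : ∀ a, constantCoeff (Φ a) = 0)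
    (hΦ : ∀ a, (f a).subst Φ = h a)
    {n : ℕ} (hn : 1 ≤ n) (φ : σ → MvPowerSeries τ R) (hφ0 : ∀ a, constantCoeff (φ a) = 0)
    (hφ : ∀ a, Φ a - map ι (φ a) ∈ ordIdeal τ K n) :
    ∃ φ' : σ → MvPowerSeries τ R, (∀ a, constantCoeff (φ' a) = 0) ∧
      ∀ a, Φ a - map ι (φ' a) ∈ ordIdeal τ K (n + 1) := by
  classical
  have hp0 : p ≠ 0 := hp.out.ne_zero
  have hsΦ : HasSubst Φ := hasSubst_of_constantCoeff_zero hΦ0
  have hφK0 : ∀ a, constantCoeff (map ι (φ a)) = 0 := fun a => by
    rw [constantCoeff_map, hφ0, map_zero]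
  have hsφ : HasSubst φ := hasSubst_of_constantCoeff_zero hφ0
  have hq2 : ∀ i : ℕ, 2 ≤ p ^ (i + 1) := fun i =>
    calc 2 ≤ p := hp.out.two_le
      _ = p ^ 1 := (pow_one p).symm
      _ ≤ p ^ (i + 1) := Nat.pow_le_pow_right hp.out.pos (by omega)
  -- the integral tuples `α_i = φ(X^q)`, `β_i = φ(X)^q`
  have hC : ∀ (i : ℕ) (b : σ), ∃ d : MvPowerSeries τ R,
      (f b).subst (fun c => map ι (expand (p ^ (i + 1)) (pow_ne_zero _ hp0) (φ c))) -
        (f b).subst (fun c => map ι (φ c ^ p ^ (i + 1))) =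
        (p : MvPowerSeries τ K) ^ 1 * map ι d := by
    intro i b
    refine lemmaC_series hf0 hfg nzd (le_refl 1)
      (fun c => expand (p ^ (i + 1)) (pow_ne_zero _ hp0) (φ c)) (fun c => φ c ^ p ^ (i + 1))
      (fun c => by rw [constantCoeff_expand, hφ0])
      (fun c => by rw [map_pow, hφ0, zero_pow (pow_ne_zero _ hp0)])
      (fun c => ?_) b
    obtain ⟨ψ, hψ⟩ := expand_pow_sub_pow_eq_natCast_mul p frob (φ c) (i + 1)
    exact ⟨ψ, by rw [pow_one]; exact hψ⟩
  choose d hd using hC
  -- the new approximation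
  set D : σ → MvPowerSeries τ R := fun a =>
    ∑ i ∈ Finset.range m, ∑ b, C (B i a b) * d i b with hD
  set φ' : σ → MvPowerSeries τ R := fun a => gb a + D a - (g a - X a).subst φ with hφ'
  have key : ∀ a, Φ a - map ι (φ' a) ∈ ordIdeal τ K (n + 1) := by
    intro a
    -- Step A: the brackets
    have hA : ∀ (i : ℕ) (b : σ),
        ((f b).subst (fun c => expand (p ^ (i + 1)) (pow_ne_zero _ hp0) (Φ c)) -
          (f b).subst (fun c => Φ c ^ p ^ (i + 1))) -
        ((f b).subst (fun c => map ι (expand (p ^ (i + 1)) (pow_ne_zero _ hp0) (φ c))) -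
          (f b).subst (fun c => map ι (φ c ^ p ^ (i + 1)))) ∈ ordIdeal τ K (n + 1) := by
      intro i b
      have h1 : (f b).subst (fun c => expand (p ^ (i + 1)) (pow_ne_zero _ hp0) (Φ c)) -
          (f b).subst (fun c => map ι (expand (p ^ (i + 1)) (pow_ne_zero _ hp0) (φ c)))
            ∈ ordIdeal τ K (n + 1) := by
        refine subst_sub_subst_mem_ordIdeal _ (fun c => by rw [constantCoeff_expand, hΦ0])
          (fun c => by rw [constantCoeff_map, constantCoeff_expand, hφ0, map_zero])
          (fun c => ?_)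
        rw [map_expand, ← map_sub]
        refine ordIdeal_mono ?_ (expand_mem_ordIdeal (pow_ne_zero _ hp0) (hφ c))
        have := hq2 i
        nlinarith
      have h2 : (f b).subst (fun c => Φ c ^ p ^ (i + 1)) -
          (f b).subst (fun c => map ι (φ c ^ p ^ (i + 1))) ∈ ordIdeal τ K (n + 1) := by
        refine subst_sub_subst_mem_ordIdeal _
          (fun c => by rw [map_pow, hΦ0, zero_pow (pow_ne_zero _ hp0)])
          (fun c => by rw [constantCoeff_map, map_pow, hφ0, zero_pow (pow_ne_zero _ hp0),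
            map_zero])
          (fun c => ?_)
        rw [map_pow]
        exact pow_sub_pow_mem_ordIdeal (hq2 i) (mem_ordIdeal_one.mpr (hΦ0 c))
          (mem_ordIdeal_one.mpr (hφK0 c)) (hφ c)
      have := Ideal.sub_mem _ h1 h2
      convert this using 1
      ring
    -- Step B
    have hB : (map ι (g a)).subst Φ - map ι (gb a) - map ι (D a) ∈ ordIdeal τ K (n + 1) := by
      apply mem_ordIdeal_of_natCast_mul_mem p nzd
      have hcomb := isType_subst_combine hp0 hfg hhg hΦ0 hΦ a
      have hDmap : (p : MvPowerSeries τ K) * map ι (D a) =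
          ∑ i ∈ Finset.range m, ∑ b, C (ι (B i a b)) *
            ((f b).subst (fun c => map ι (expand (p ^ (i + 1)) (pow_ne_zero _ hp0) (φ c))) -
              (f b).subst (fun c => map ι (φ c ^ p ^ (i + 1)))) := by
        rw [hD]
        simp only [map_sum, map_mul, map_C, Finset.mul_sum]
        refine Finset.sum_congr rfl fun i _ => Finset.sum_congr rfl fun b _ => ?_
        rw [hd i b, pow_one]
        ring
      rw [mul_sub, hcomb, hDmap, ← Finset.sum_sub_distrib]
      refine Ideal.sum_mem _ fun i _ => ?_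
      rw [← Finset.sum_sub_distrib]
      refine Ideal.sum_mem _ fun b _ => ?_
      rw [← mul_sub]
      exact Ideal.mul_mem_left _ _ (hA i b)
    -- Step C
    have hgsplit : map ι (g a) = X a + map ι (g a - X a) := by
      rw [map_sub, map_X]
      ring
    have hC1 : (map ι (g a)).subst Φ = Φ a + (map ι (g a - X a)).subst Φ := by
      conv_lhs => rw [hgsplit]
      rw [subst_add hsΦ, subst_X hsΦ]
    have hC2 : (map ι (g a - X a)).subst Φ - (map ι (g a - X a)).subst (fun c => map ι (φ c))
        ∈ ordIdeal τ K (n + 1) :=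
      subst_sub_subst_mem_ordIdeal_succ _ (map_mem_ordIdeal ι (hg a)) hΦ0 hφK0 hφ
    have hC3 : (map ι (g a - X a)).subst (fun c => map ι (φ c)) =
        map ι ((g a - X a).subst φ) := (map_subst hsφ _).symm
    have hfinal : Φ a - map ι (φ' a) =
        ((map ι (g a)).subst Φ - map ι (gb a) - map ι (D a)) -
        ((map ι (g a - X a)).subst Φ -
          (map ι (g a - X a)).subst (fun c => map ι (φ c))) := by
      rw [hC1, hC3, hφ']
      simp only [map_sub, map_add]
      ring
    rw [hfinal]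
    exact Ideal.sub_mem _ hB hC2
  -- correct the constant term
  refine ⟨fun a => φ' a - C (constantCoeff (φ' a)), fun a => by simp, fun a => ?_⟩
  have hc : ι (constantCoeff (φ' a)) = 0 := by
    have h1 := (ordIdeal_mono (Nat.le_add_left 1 n) (key a))
    rw [mem_ordIdeal_one, map_sub, hΦ0, zero_sub, neg_eq_zero, constantCoeff_map] at h1
    exact h1
  have : Φ a - map ι (φ' a - C (constantCoeff (φ' a))) = Φ a - map ι (φ' a) := by
    rw [map_sub, map_C, hc, map_zero, sub_zero]
  rw [this]
  exact key a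

/-- **Functional-equation lemma** (Hazewinkel, multi-dimensional, untwisted case `σ = id`).
Let `p` be a prime which is a non-zero-divisor on `K`, `ι : R → K` a ring homomorphism, and assume
`a^p ≡ a mod p` for all `a : R`.  Let `f` (in the variables `σ`) and `h` (in the variables `τ`) be
tuples of power series over `K` satisfying functional equations of the same type
`p • f = p • g + ∑_{i<m} B_i • f(X^(p^(i+1)))`, `p • h = p • ḡ + ∑_{i<m} B_i • h(X^(p^(i+1)))`
with `g`, `ḡ`, `B_i` integral and `g ≡ X` modulo terms of degree `≥ 2`.  If `f ∘ Φ = h`, then `Φ` is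
integral. -/
theorem integral_of_isType {ι : R →+* K} {p : ℕ} [hp : Fact p.Prime] {m : ℕ} {B : ℕ → σ → σ → R}
    (nzd : ∀ x : K, (p : K) * x = 0 → x = 0)
    (frob : ∀ a : R, ∃ b : R, a ^ p - a = (p : R) * b)
    {g : σ → MvPowerSeries σ R} {f : σ → MvPowerSeries σ K}
    (hg : ∀ a, g a - X a ∈ ordIdeal σ R 2)
    (hf0 : ∀ a, constantCoeff (f a) = 0)
    (hfg : IsType ι p hp.out.ne_zero m B g f)
    {gb : σ → MvPowerSeries τ R} {h : σ → MvPowerSeries τ K}
    (hhg : IsType ι p hp.out.ne_zero m B gb h)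
    {Φ : σ → MvPowerSeries τ K} (hΦ0 : ∀ a, constantCoeff (Φ a) = 0)
    (hΦ : ∀ a, (f a).subst Φ = h a) :
    ∀ a, ∃ φ : MvPowerSeries τ R, Φ a = map ι φ := by
  classical
  have hall : ∀ n : ℕ, ∃ φ : σ → MvPowerSeries τ R, (∀ a, constantCoeff (φ a) = 0) ∧
      ∀ a, Φ a - map ι (φ a) ∈ ordIdeal τ K (n + 1) := by
    intro n
    induction n with
    | zero =>
      refine ⟨fun _ => 0, fun _ => by simp, fun a => ?_⟩
      rw [map_zero, sub_zero, zero_add, mem_ordIdeal_one]
      exact hΦ0 a
    | succ n ih =>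
      obtain ⟨φ, hφ0, hφ⟩ := ih
      exact integral_step nzd frob hg hf0 hfg hhg hΦ0 hΦ (Nat.le_add_left 1 n) φ hφ0 hφ
  choose φ _ hφ using hall
  intro a
  refine ⟨mkSeries fun e => coeff e (φ e.degree a), ?_⟩
  ext e
  have := hφ e.degree a e (Nat.lt_succ_self _)
  rw [map_sub, sub_eq_zero] at this
  rw [this, coeff_map, coeff_map, coeff_mkSeries]

end Fermat.Agent.S19.H555
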