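/-
helper555 — cell A3 (S19), hedge piece FG-1, part 5: formal inverse function theorem for tuples of
multivariate power series.  If `F a = X a + (terms of degree ≥ 2)` then for every tuple `h` without
constant terms there is a unique tuple `Φ` without constant terms with `F ∘ Φ = h`.  Mathlib-only.
-/
import Fermat.Agent.S19.H555.Basic
import Fermat.Agent.S19.H555.Frob

set_option autoImplicit false

namespace Fermat.Agent.S19.H555

open MvPowerSeries

variable {σ τ : Type*} [Fintype σ] [Finite τ]
variable {K : Type*} [CommRing K]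

omit [Finite τ] in
theorem eq_zero_of_forall_mem_ordIdeal {x : MvPowerSeries τ K}
    (h : ∀ n, x ∈ ordIdeal τ K n) : x = 0 := by
  ext e
  rw [map_zero]
  exact h (e.degree + 1) e (Nat.lt_succ_self _)

/-- Picard iteration for the fixed point equation `Φ = h - F₂(Φ)`, `F₂ = F - X`. -/
noncomputable def invSeq (F : σ → MvPowerSeries σ K) (h : σ → MvPowerSeries τ K) :
    ℕ → σ → MvPowerSeries τ K
  | 0 => fun _ => 0
  | n + 1 => fun a => h a - (F a - X a).subst (invSeq F h n)

omit [Finite τ] in
theorem constantCoeff_invSeq (F : σ → MvPowerSeries σ K) (hF : ∀ a, F a - X a ∈ ordIdeal σ K 2)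
    (h : σ → MvPowerSeries τ K) (h0 : ∀ a, constantCoeff (h a) = 0) (n : ℕ) (a : σ) :
    constantCoeff (invSeq F h n a) = 0 := by
  induction n generalizing a with
  | zero => simp [invSeq]
  | succ n ih =>
    have hF0 : constantCoeff (F a - X a) = 0 :=
      mem_ordIdeal_one.mp (ordIdeal_mono (by norm_num) (hF a))
    simp only [invSeq, map_sub, h0, zero_sub, neg_eq_zero]
    exact constantCoeff_subst_eq_zero (hasSubst_of_constantCoeff_zero ih) ih hF0

theorem invSeq_succ_sub_mem (F : σ → MvPowerSeries σ K) (hF : ∀ a, F a - X a ∈ ordIdeal σ K 2)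
    (h : σ → MvPowerSeries τ K) (h0 : ∀ a, constantCoeff (h a) = 0) (n : ℕ) (a : σ) :
    invSeq F h (n + 1) a - invSeq F h n a ∈ ordIdeal τ K (n + 1) := by
  induction n generalizing a with
  | zero =>
    have hF0 : constantCoeff (F a - X a) = 0 :=
      mem_ordIdeal_one.mp (ordIdeal_mono (by norm_num) (hF a))
    rw [mem_ordIdeal_one]
    simp only [invSeq, sub_zero, map_sub, h0, zero_sub, neg_eq_zero]
    exact constantCoeff_subst_eq_zero (hasSubst_of_constantCoeff_zero (fun _ => by simp))
      (fun _ => by simp) hF0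
  | succ n ih =>
    have e : invSeq F h (n + 1 + 1) a - invSeq F h (n + 1) a =
        -((F a - X a).subst (invSeq F h (n + 1)) - (F a - X a).subst (invSeq F h n)) := by
      simp only [invSeq]
      ring
    rw [e]
    refine Ideal.neg_mem_iff _ |>.mpr ?_
    exact subst_sub_subst_mem_ordIdeal_succ _ (hF a) (constantCoeff_invSeq F hF h h0 _)
      (constantCoeff_invSeq F hF h h0 _) ih

theorem invSeq_sub_mem (F : σ → MvPowerSeries σ K) (hF : ∀ a, F a - X a ∈ ordIdeal σ K 2)
    (h : σ → MvPowerSeries τ K) (h0 : ∀ a, constantCoeff (h a) = 0) {n k : ℕ} (a : σ) :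
    invSeq F h (n + k) a - invSeq F h n a ∈ ordIdeal τ K (n + 1) := by
  induction k with
  | zero => simp
  | succ k ih =>
    have : invSeq F h (n + (k + 1)) a - invSeq F h n a =
        (invSeq F h (n + k + 1) a - invSeq F h (n + k) a) +
          (invSeq F h (n + k) a - invSeq F h n a) := by
      rw [← add_assoc]
      ring
    rw [this]
    exact Ideal.add_mem _ (ordIdeal_mono (by omega) (invSeq_succ_sub_mem F hF h h0 (n + k) a)) ih

/-- The limit of the Picard iteration. -/
noncomputable def invLim (F : σ → MvPowerSeries σ K) (h : σ → MvPowerSeries τ K) (a : σ) :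
    MvPowerSeries τ K :=
  mkSeries fun e => coeff e (invSeq F h (e.degree + 1) a)

theorem invLim_sub_invSeq_mem (F : σ → MvPowerSeries σ K) (hF : ∀ a, F a - X a ∈ ordIdeal σ K 2)
    (h : σ → MvPowerSeries τ K) (h0 : ∀ a, constantCoeff (h a) = 0) (n : ℕ) (a : σ) :
    invLim F h a - invSeq F h n a ∈ ordIdeal τ K (n + 1) := by
  intro e he
  rw [map_sub, sub_eq_zero, invLim, coeff_mkSeries]
  rcases Nat.lt_or_ge e.degree n with hlt | hge
  · -- n = (e.degree + 1) + k
    obtain ⟨k, rfl⟩ : ∃ k, n = e.degree + 1 + k := ⟨n - (e.degree + 1), by omega⟩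
    have := invSeq_sub_mem F hF h h0 (n := e.degree + 1) (k := k) a e (by omega)
    rw [map_sub, sub_eq_zero] at this
    exact this.symm
  · have hn : n = e.degree := by omega
    subst hn
    have := invSeq_succ_sub_mem F hF h h0 e.degree a e (by omega)
    rw [map_sub, sub_eq_zero] at this
    exact this

theorem constantCoeff_invLim (F : σ → MvPowerSeries σ K) (hF : ∀ a, F a - X a ∈ ordIdeal σ K 2)
    (h : σ → MvPowerSeries τ K) (h0 : ∀ a, constantCoeff (h a) = 0) (a : σ) :
    constantCoeff (invLim F h a) = 0 := by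
  have := invLim_sub_invSeq_mem F hF h h0 0 a
  rw [zero_add, mem_ordIdeal_one] at this
  simpa [invSeq] using this

theorem invLim_fixed (F : σ → MvPowerSeries σ K) (hF : ∀ a, F a - X a ∈ ordIdeal σ K 2)
    (h : σ → MvPowerSeries τ K) (h0 : ∀ a, constantCoeff (h a) = 0) (a : σ) :
    invLim F h a = h a - (F a - X a).subst (invLim F h) := by
  rw [← sub_eq_zero]
  apply eq_zero_of_forall_mem_ordIdeal
  intro n
  have h1 := invLim_sub_invSeq_mem F hF h h0 (n + 1) a
  have h2 : (F a - X a).subst (invLim F h) - (F a - X a).subst (invSeq F h n) ∈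
      ordIdeal τ K (n + 1) :=
    subst_sub_subst_mem_ordIdeal _ (constantCoeff_invLim F hF h h0)
      (constantCoeff_invSeq F hF h h0 n) (fun b => invLim_sub_invSeq_mem F hF h h0 n b)
  have e : invLim F h a - (h a - (F a - X a).subst (invLim F h)) =
      (invLim F h a - invSeq F h (n + 1) a) +
        ((F a - X a).subst (invLim F h) - (F a - X a).subst (invSeq F h n)) := by
    simp only [invSeq]
    ring
  rw [e]
  exact ordIdeal_mono (by omega) (Ideal.add_mem _ (ordIdeal_mono (by omega) h1) h2)

omit [Finite τ] [Fintype σ] in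
theorem subst_eq_add_subst_sub_X (F : σ → MvPowerSeries σ K) {Φ : σ → MvPowerSeries τ K}
    (hΦ : HasSubst Φ) (a : σ) : (F a).subst Φ = Φ a + (F a - X a).subst Φ := by
  rw [subst_sub hΦ, subst_X hΦ]
  ring

/-- **Formal inverse function theorem**, existence. -/
theorem exists_subst_eq (F : σ → MvPowerSeries σ K) (hF : ∀ a, F a - X a ∈ ordIdeal σ K 2)
    (h : σ → MvPowerSeries τ K) (h0 : ∀ a, constantCoeff (h a) = 0) :
    ∃ Φ : σ → MvPowerSeries τ K, (∀ a, constantCoeff (Φ a) = 0) ∧ ∀ a, (F a).subst Φ = h a := by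
  refine ⟨invLim F h, constantCoeff_invLim F hF h h0, fun a => ?_⟩
  rw [subst_eq_add_subst_sub_X F
    (hasSubst_of_constantCoeff_zero (constantCoeff_invLim F hF h h0))]
  nth_rewrite 1 [invLim_fixed F hF h h0 a]
  ring

/-- **Formal inverse function theorem**, uniqueness. -/
theorem subst_injective (F : σ → MvPowerSeries σ K) (hF : ∀ a, F a - X a ∈ ordIdeal σ K 2)
    {Φ Ψ : σ → MvPowerSeries τ K} (hΦ0 : ∀ a, constantCoeff (Φ a) = 0)
    (hΨ0 : ∀ a, constantCoeff (Ψ a) = 0) (hΦΨ : ∀ a, (F a).subst Φ = (F a).subst Ψ) :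
    Φ = Ψ := by
  have hsΦ := hasSubst_of_constantCoeff_zero hΦ0
  have hsΨ := hasSubst_of_constantCoeff_zero hΨ0
  have key : ∀ n : ℕ, ∀ a, Φ a - Ψ a ∈ ordIdeal τ K n := by
    intro n
    induction n with
    | zero =>
      intro a e he
      simp at he
    | succ n ih =>
      intro a
      have e : Φ a - Ψ a = -((F a - X a).subst Φ - (F a - X a).subst Ψ) := by
        have := hΦΨ a
        rw [subst_eq_add_subst_sub_X F hsΦ, subst_eq_add_subst_sub_X F hsΨ] at this
        linear_combination this
      rw [e]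
      exact (Ideal.neg_mem_iff _).mpr (subst_sub_subst_mem_ordIdeal_succ _ (hF a) hΦ0 hΨ0 ih)
  funext a
  rw [← sub_eq_zero]
  exact eq_zero_of_forall_mem_ordIdeal fun n => key n a

end Fermat.Agent.S19.H555
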